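import Fermat.Prelude.Def_AlgebraicCurve_CanonicalDivisor
import Fermat.Agent.FF.KaehlerOrd
import Fermat.Agent.MF.PlaceOrbits.Abstract

/-!
The degree of `div (dx)` from the cardinalities of the special fibres of `x`.
-/

set_option autoImplicit false

namespace Fermat.Agent.MF.Genus

open AlgebraicCurve KaehlerDifferential Fermat.Agent.FF
open Fermat.Agent.MF.PlaceOrbits (pl_ord_neg pl_min_le_ord_add pl_mem_iff_ord_nonneg)

variable {K F : Type*} [Field K] [Field F] [Algebra K F] [IsAlgClosed K] [IsCurveOver K F]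

omit [IsAlgClosed K] [IsCurveOver K F] in
theorem ord_algebraMap_const (v : Place K F) (a : K) : v.ord (algebraMap K F a) = 0 := by
  rcases eq_or_ne a 0 with rfl | ha
  · simp
  have h1 := (pl_mem_iff_ord_nonneg v).mp (v.algebraMap_mem' a)
  have h2 := (pl_mem_iff_ord_nonneg v).mp (v.algebraMap_mem' a⁻¹)
  rw [map_inv₀, v.ord_inv] at h2
  omega

omit [IsAlgClosed K] [IsCurveOver K F] in
theorem ord_sub_const_of_neg (v : Place K F) {x : F} (hx : v.ord x < 0) (a : K) :
    x - algebraMap K F a ≠ 0 ∧ v.ord (x - algebraMap K F a) = v.ord x := by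
  have ha := ord_algebraMap_const v a
  have hne : x - algebraMap K F a ≠ 0 := by
    intro h
    rw [sub_eq_zero] at h
    rw [h] at hx
    omega
  refine ⟨hne, ?_⟩
  have hx0 : x ≠ 0 := fun h => by simp [h] at hx
  rcases eq_or_ne a 0 with rfl | ha0
  · simp
  have ha0' : algebraMap K F a ≠ 0 := by simpa
  have h1 := pl_min_le_ord_add v (x := x) (y := -algebraMap K F a)
    (by rwa [← sub_eq_add_neg]) hx0 (neg_ne_zero.mpr ha0')
  have h2 := pl_min_le_ord_add v (x := x - algebraMap K F a) (y := algebraMap K F a)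
    (by simpa using hx0) hne ha0'
  rw [← sub_eq_add_neg, pl_ord_neg, ha] at h1
  rw [sub_add_cancel, ha] at h2
  omega

/-- At a place where `x` is regular, `x` has a value in `K`. -/
theorem exists_value (v : Place K F) {x : F} (hx : 0 ≤ v.ord x)
    (hxK : ∀ a : K, x ≠ algebraMap K F a) :
    ∃ a : K, 0 < v.ord (x - algebraMap K F a) := by
  have : Module.Finite K v.ResidueField := IsCurveOver.finiteResidue v
  have : Algebra.IsIntegral K v.ResidueField := Algebra.IsIntegral.of_finite K v.ResidueField
  have hbij : Function.Bijective (algebraMap K v.ResidueField) :=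
    IsAlgClosed.algebraMap_bijective_of_isIntegral
  have hxm : x ∈ v.toValuationSubring := (pl_mem_iff_ord_nonneg v).mpr hx
  obtain ⟨a, ha⟩ := hbij.2 (IsLocalRing.residue v.toValuationSubring ⟨x, hxm⟩)
  refine ⟨a, ?_⟩
  have hne : x - algebraMap K F a ≠ 0 := sub_ne_zero.mpr (hxK a)
  have hm : (⟨x, hxm⟩ - algebraMap K v.toValuationSubring a : v.toValuationSubring) ∈
      IsLocalRing.maximalIdeal v.toValuationSubring := by
    rw [← Ideal.Quotient.eq]
    exact ha.symm
  set w := (⟨x, hxm⟩ - algebraMap K v.toValuationSubring a : v.toValuationSubring) with hw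
  have hwF : (w : F) = x - algebraMap K F a := rfl
  have h0 : 0 ≤ v.ord (w : F) := (pl_mem_iff_ord_nonneg v).mp w.2
  rw [← hwF]
  refine h0.lt_of_ne' fun h => ?_
  have hinv : (w : F)⁻¹ ∈ v.toValuationSubring :=
    (pl_mem_iff_ord_nonneg v).mpr (by rw [v.ord_inv, h]; simp)
  exact hm (isUnit_iff_exists_inv.mpr
    ⟨⟨_, hinv⟩, Subtype.ext (mul_inv_cancel₀ (by rwa [hwF]))⟩)

omit [IsAlgClosed K] [IsCurveOver K F] in
open scoped Classical in
/-- The finite set of places where `f` vanishes, for a divisor `D` of `f`. -/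
theorem mem_zeros_iff {f : F} {D : Divisor K F} (hD : ∀ v, D v = v.ord f) (v : Place K F) :
    v ∈ D.support.filter (fun v => 0 < v.ord f) ↔ 0 < v.ord f := by
  simp only [Finset.mem_filter, Finsupp.mem_support_iff, hD]
  exact ⟨fun h => h.2, fun h => ⟨h.ne', h⟩⟩

theorem degree_eq_sum_of_support_subset (D : Divisor K F) (T : Finset (Place K F))
    (hT : D.support ⊆ T) : Divisor.degree D = ∑ v ∈ T, D v := by
  rw [Divisor.degree, Finsupp.liftAddHom_apply, Finsupp.sum]
  simp only [AddMonoidHom.coe_mulRight, IsCurveOver.deg_eq_one_of_isAlgClosed, Nat.cast_one,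
    mul_one]
  exact Finset.sum_subset hT fun v _ hv => Finsupp.notMem_support_iff.mp hv

open scoped Classical in
/-- Zeros and poles of a function are equinumerous. -/
theorem sum_ord_zeros_eq {f : F} {D : Divisor K F} (hD : ∀ v, D v = v.ord f)
    (hdeg : Divisor.degree D = 0) :
    ∑ v ∈ D.support.filter (fun v => 0 < v.ord f), v.ord f =
      -∑ v ∈ D.support.filter (fun v => v.ord f < 0), v.ord f := by
  rw [degree_eq_sum_of_support_subset D _ subset_rfl,
    ← Finset.sum_filter_add_sum_filter_not D.support (fun v => 0 < v.ord f)] at hdeg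
  have : D.support.filter (fun v => ¬ 0 < v.ord f) = D.support.filter (fun v => v.ord f < 0) := by
    refine Finset.filter_congr fun v hv => ?_
    rw [Finsupp.mem_support_iff, hD] at hv
    omega
  simp only [hD, this] at hdeg
  omega

/-- **Degree of `div dx`**: `n` is the degree of the pole divisor of `x`, and `x` is unramified
outside `B` and infinity. -/
theorem degree_div_dx [CharZero K] {x : F} (hxK : ∀ a : K, x ≠ algebraMap K F a)
    (n : ℕ) (B : Finset K) (Dω : Divisor K F)
    (hDω : ∀ v : Place K F, Dω v = v.ordDifferential (D K F x))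
    (hpole : ∀ P : Finset (Place K F), (∀ v, v ∈ P ↔ v.ord x < 0) → ∑ v ∈ P, v.ord x = -(n : ℤ))
    (hunr : ∀ a : K, a ∉ B → Nat.card {v : Place K F // 0 < v.ord (x - algebraMap K F a)} = n) :
    Divisor.degree Dω = -(n : ℤ) - Nat.card {v : Place K F // v.ord x < 0}
      + ∑ a ∈ B, ((n : ℤ) - Nat.card {v : Place K F // 0 < v.ord (x - algebraMap K F a)}) := by
  classical
  choose E hE hEdeg using fun a : K =>
    HasPrincipalDivisors.exists_divisor (K := K) (x - algebraMap K F a) (sub_ne_zero.mpr (hxK a))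
  set Z : K → Finset (Place K F) := fun a =>
    (E a).support.filter (fun v => 0 < v.ord (x - algebraMap K F a)) with hZ
  have hZmem : ∀ a v, v ∈ Z a ↔ 0 < v.ord (x - algebraMap K F a) := fun a v =>
    mem_zeros_iff (hE a) v
  set P : Finset (Place K F) := (E 0).support.filter (fun v => v.ord x < 0) with hP
  have hPmem : ∀ v, v ∈ P ↔ v.ord x < 0 := fun v => by
    simp only [hP, Finset.mem_filter, Finsupp.mem_support_iff, hE, map_zero, sub_zero]
    exact ⟨fun h => h.2, fun h => ⟨h.ne, h⟩⟩
  have hPsum := hpole P hPmem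
  have hZsum : ∀ a, ∑ v ∈ Z a, v.ord (x - algebraMap K F a) = n := by
    intro a
    have h := sum_ord_zeros_eq (hE a) (hEdeg a)
    have hset : (E a).support.filter (fun v => v.ord (x - algebraMap K F a) < 0) = P := by
      ext v
      rw [hPmem]
      simp only [Finset.mem_filter, Finsupp.mem_support_iff, hE]
      constructor
      · rintro ⟨-, h2⟩
        by_contra h3
        have hxm : x ∈ v.toValuationSubring := (pl_mem_iff_ord_nonneg v).mpr (not_lt.mp h3)
        have := (pl_mem_iff_ord_nonneg v).mp (sub_mem hxm (v.algebraMap_mem' a))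
        omega
      · intro h
        rw [(ord_sub_const_of_neg v h a).2]
        exact ⟨h.ne, h⟩
    rw [hset, Finset.sum_congr rfl fun v hv =>
      (ord_sub_const_of_neg v ((hPmem v).mp hv) a).2, hPsum] at h
    simpa using h
  have hZcard : ∀ a, Nat.card {v : Place K F // 0 < v.ord (x - algebraMap K F a)} = (Z a).card :=
    fun a => by
      rw [← Fintype.card_coe, ← Nat.card_eq_fintype_card]
      exact (Nat.card_congr (Equiv.subtypeEquivRight (hZmem a))).symm
  have hPcard : Nat.card {v : Place K F // v.ord x < 0} = P.card := by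
    rw [← Fintype.card_coe, ← Nat.card_eq_fintype_card]
    exact (Nat.card_congr (Equiv.subtypeEquivRight hPmem)).symm
  -- the values of `Dω`
  have hval : ∀ a, ∀ v ∈ Z a, Dω v = v.ord (x - algebraMap K F a) - 1 := by
    intro a v hv
    rw [hDω, show D K F x = D K F (x - algebraMap K F a) by simp]
    exact KS.ordDifferential_D_eq (IsCurveOver.deg_eq_one_of_isAlgClosed v)
      (by exact_mod_cast ((hZmem a v).mp hv).ne')
  have hvalP : ∀ v ∈ P, Dω v = v.ord x - 1 := by
    intro v hv
    rw [hDω]
    exact KS.ordDifferential_D_eq (IsCurveOver.deg_eq_one_of_isAlgClosed v)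
      (by exact_mod_cast ((hPmem v).mp hv).ne)
  have hsupp : Dω.support ⊆ P ∪ B.biUnion Z := by
    intro v hv
    rw [Finsupp.mem_support_iff] at hv
    rw [Finset.mem_union, Finset.mem_biUnion]
    rcases lt_or_ge (v.ord x) 0 with h | h
    · exact Or.inl ((hPmem v).mpr h)
    obtain ⟨a, ha⟩ := exists_value v h hxK
    have hvZ := (hZmem a v).mpr ha
    refine Or.inr ⟨a, ?_, hvZ⟩
    by_contra haB
    apply hv
    rw [hval a v hvZ]
    have hcard : ((Z a).card : ℤ) = n := by rw [← hZcard a, hunr a haB]
    have hone : ∀ w ∈ Z a, (1 : ℤ) ≤ w.ord (x - algebraMap K F a) := fun w hw =>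
      (hZmem a w).mp hw
    have := (Finset.sum_eq_sum_iff_of_le hone).mp (by simp [hcard, hZsum a]) v hvZ
    omega
  have hdisjPZ : Disjoint P (B.biUnion Z) := by
    rw [Finset.disjoint_left]
    intro v hvP hvZ
    obtain ⟨a, -, ha⟩ := Finset.mem_biUnion.mp hvZ
    have h1 := (hZmem a v).mp ha
    rw [(ord_sub_const_of_neg v ((hPmem v).mp hvP) a).2] at h1
    have := (hPmem v).mp hvP
    omega
  have hdisjZ : (B : Set K).PairwiseDisjoint Z := by
    intro a _ b _ hab
    rw [Function.onFun, Finset.disjoint_left]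
    intro v ha hb
    have h1 := (hZmem a v).mp ha
    have h2 := (hZmem b v).mp hb
    have hne : algebraMap K F (b - a) ≠ 0 := by
      rw [ne_eq, map_eq_zero_iff _ (algebraMap K F).injective, sub_eq_zero]
      exact Ne.symm hab
    have hsum : (x - algebraMap K F a) + -(x - algebraMap K F b) = algebraMap K F (b - a) := by
      rw [map_sub]; ring
    have h3 := pl_min_le_ord_add v (x := x - algebraMap K F a) (y := -(x - algebraMap K F b))
      (by rwa [hsum]) (sub_ne_zero.mpr (hxK a)) (neg_ne_zero.mpr (sub_ne_zero.mpr (hxK b)))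
    rw [hsum, pl_ord_neg, ord_algebraMap_const] at h3
    omega
  rw [degree_eq_sum_of_support_subset Dω _ hsupp, Finset.sum_union hdisjPZ,
    Finset.sum_biUnion hdisjZ, Finset.sum_congr rfl hvalP, hPcard]
  refine congr_arg₂ (· + ·) ?_ (Finset.sum_congr rfl fun a _ => ?_)
  · rw [Finset.sum_sub_distrib, hPsum]
    simp
  · rw [Finset.sum_congr rfl (hval a), Finset.sum_sub_distrib, hZsum, hZcard]
    simp

end Fermat.Agent.MF.Genus
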