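import Fermat.Prelude.Def_ModularCurve_GenusNumerics
import Fermat.Agent.MF.Genus.DivDx
import Fermat.Agent.FF.KaehlerCanonical

/-!
The arithmetic turning the fibres of `x` into `genusFormula`.
-/

set_option autoImplicit false

namespace Fermat.Agent.MF.Genus

open AlgebraicCurve KaehlerDifferential Fermat.Agent.FF

variable {K F : Type*} [Field K] [Field F] [Algebra K F] [IsAlgClosed K] [IsCurveOver K F]

/-- **The genus formula from the fibres of `x`.** -/
theorem genus_eq_genusFormula_of_fibres [CharZero K] [HasCanonicalDivisor (K := K) (F := F)]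
    (N : ℕ) {x : F} (hxK : ∀ a : K, x ≠ algebraMap K F a) (hx : D K F x ≠ 0)
    {g : ℕ} (hg : Divisor.degree (canonicalDivisorOf hx) = 2 * (g : ℤ) - 2)
    (hpole : ∀ P : Finset (Place K F), (∀ v, v ∈ P ↔ v.ord x < 0) →
      ∑ v ∈ P, v.ord x = -(ModularCurve.dedekindPsi N : ℤ))
    (hunr : ∀ a : K, a ≠ 0 → a ≠ 1728 →
      Nat.card {v : Place K F // 0 < v.ord (x - algebraMap K F a)} = ModularCurve.dedekindPsi N)
    (h0 : 3 * Nat.card {v : Place K F // 0 < v.ord (x - algebraMap K F (0 : K))} =
      ModularCurve.dedekindPsi N + 2 * ModularCurve.nuThree N)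
    (h1728 : 2 * Nat.card {v : Place K F // 0 < v.ord (x - algebraMap K F (1728 : K))} =
      ModularCurve.dedekindPsi N + ModularCurve.nuTwo N)
    (hcusp : Nat.card {v : Place K F // v.ord x < 0} = ModularCurve.cuspCount N) :
    (genus K F : ℚ) = ModularCurve.genusFormula N := by
  classical
  have h01728 : (0 : K) ∉ ({1728} : Finset K) := by
    rw [Finset.mem_singleton]
    exact_mod_cast (by norm_num : (0 : ℕ) ≠ 1728)
  have hdeg := degree_div_dx hxK (ModularCurve.dedekindPsi N) {0, 1728} (canonicalDivisorOf hx)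
    (canonicalDivisorOf_apply hx) hpole
    (fun a ha => by
      simp only [Finset.mem_insert, Finset.mem_singleton, not_or] at ha
      exact hunr a ha.1 ha.2)
  rw [hg, Finset.sum_insert h01728, Finset.sum_singleton, hcusp] at hdeg
  rw [KS.genus_eq_of_degree IsCurveOver.deg_eq_one_of_isAlgClosed hx hg, ModularCurve.genusFormula]
  set A := Nat.card {v : Place K F // 0 < v.ord (x - algebraMap K F (0 : K))}
  set B := Nat.card {v : Place K F // 0 < v.ord (x - algebraMap K F (1728 : K))}
  have hdeg' := congrArg (Int.cast : ℤ → ℚ) hdeg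
  have h0' := congrArg (Nat.cast : ℕ → ℚ) h0
  have h1' := congrArg (Nat.cast : ℕ → ℚ) h1728
  push_cast at hdeg' h0' h1'
  linarith

end Fermat.Agent.MF.Genus
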