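import Fermat.Agent.MF.PlaceOrbits.Main
import Fermat.Agent.MF.Cosets.Elliptic
import Fermat.Agent.MF.Genus.Assembly
import Fermat.Agent.FF.KaehlerGenus

/-!
The genus of `X₀(N)`: Hurwitz for `dj`, with the fibres over `0`, `1728`, `∞` given by orbits.
-/

set_option autoImplicit false

noncomputable section

namespace Fermat.Agent.MF.Genus

open AlgebraicCurve KaehlerDifferential IntermediateField
open Fermat.Agent.MF.PlaceOrbits

variable {K : Type*} [Field K] {ι : K →+* ℂ} {N : ℕ} [NeZero N]
  {E : IntermediateField K (LaurentSeries K)} (D : JData ι N E)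

theorem card_HOrbits_one : Nat.card (HOrbits N 1) = ModularCurve.dedekindPsi N := by
  have hinj : Function.Bijective (fun q : Cosets.X0 N => (Quotient.mk'' q : HOrbits N 1)) := by
    refine ⟨fun a b h => ?_, Quotient.mk''_surjective⟩
    obtain ⟨⟨g, hg⟩, rfl⟩ := Quotient.exact h
    simp only [Subgroup.zpowers_one_eq_bot, Subgroup.mem_bot] at hg
    subst hg
    exact one_smul _ b
  rw [← Nat.card_eq_of_bijective _ hinj, Cosets.card_X0]

theorem card_fibre_of_point [IsAlgClosed K] {a : K} {τ : UpperHalfPlane} (hτ : kleinJ τ = ι a)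
    {h : Matrix.SpecialLinearGroup (Fin 2) ℤ} (hg : IsStabGen τ h) :
    Nat.card {P : Place K E // 0 < P.ord (D.j - algebraMap K E a)} = Nat.card (HOrbits N h) := by
  obtain ⟨π, -⟩ := D.exists_pointEquiv hτ hg
  exact (Nat.card_congr π).symm

theorem card_poles [IsAlgClosed K] :
    Nat.card {P : Place K E // P.ord D.j < 0} = ModularCurve.cuspCount N := by
  obtain ⟨π, -⟩ := D.exists_cuspEquiv
  rw [← Cosets.card_TOrbits]
  refine ((Nat.card_congr π).trans (Nat.card_congr (Equiv.subtypeEquivRight fun P => ?_))).symm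
  rw [P.ord_inv]
  omega

theorem sum_ord_poles [IsAlgClosed K] (P : Finset (Place K E))
    (hP : ∀ v, v ∈ P ↔ v.ord D.j < 0) :
    ∑ v ∈ P, v.ord D.j = -(ModularCurve.dedekindPsi N : ℤ) := by
  have hgen : K⟮D.j⁻¹⟯ = K⟮D.j⟯ := by
    refine le_antisymm (adjoin_simple_le_iff.2 ?_) (adjoin_simple_le_iff.2 ?_)
    · exact inv_mem (mem_adjoin_simple_self K _)
    · simpa using inv_mem (mem_adjoin_simple_self K D.j⁻¹)
  obtain ⟨S, hS, hsum⟩ := D.sum_ord_eq hgen fun halg =>
    D.transcendental_j (by simpa using halg.inv)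
  have hSP : S = P := by
    ext v
    rw [hS, hP, v.ord_inv]
    omega
  subst hSP
  simp only [Place.ord_inv, Finset.sum_neg_distrib] at hsum
  omega

include D in
/-- **The genus of `X₀(N)`.** -/
theorem genus_eq_genusFormula [IsAlgClosed K] [HasCanonicalDivisor (K := K) (F := E)] :
    (genus K E : ℚ) = ModularCurve.genusFormula N := by
  have hK : CharZero K := ι.charZero
  have := D.isFunctionField
  have := hK
  have : IsCurveOver K E := FF.instIsCurveOver
  have := FF.finiteDimensional_adjoin D.transcendental_j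
  have hsep : FF.IsSeparatingElement K D.j := ⟨D.transcendental_j, inferInstance⟩
  have hne : ∀ a : K, D.j ≠ algebraMap K E a := fun a h =>
    D.transcendental_j (h ▸ isAlgebraic_algebraMap a)
  have hdeg : Divisor.degree (canonicalDivisorOf (FF.KS.D_ne_zero_of_isSeparatingElement hsep))
      = 2 * (genusFF K E : ℤ) - 2 := by
    rw [FF.KS.canonicalDivisorOf_D hsep, hsep.degree_canonicalDiv]
  refine genus_eq_genusFormula_of_fibres N hne _ hdeg (sum_ord_poles D) (fun a h0 h1 => ?_) ?_ ?_
    (card_poles D)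
  · obtain ⟨τ, hτ⟩ := kleinJ_surjective (ι a)
    have h0' : kleinJ τ ≠ 0 := by rw [hτ]; exact (map_ne_zero ι).mpr h0
    have h1' : kleinJ τ ≠ 1728 := by
      rw [hτ, ← map_ofNat ι 1728]
      exact fun h => h1 (ι.injective h)
    rw [card_fibre_of_point D hτ (isStabGen_one h0' h1'), card_HOrbits_one]
  · rw [card_fibre_of_point D (a := (0 : K)) (by rw [kleinJ_rhoPt, map_zero]) isStabGen_rhoPt]
    exact Cosets.three_mul_card_orbits_ST N
  · rw [card_fibre_of_point D (a := (1728 : K)) (by rw [kleinJ_I, map_ofNat]) isStabGen_I]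
    exact Cosets.two_mul_card_orbits_S N

end Fermat.Agent.MF.Genus
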